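import Fermat.Agent.Mazur.Small.Seven
import Fermat.Agent.Mazur.Small.PointsFive

/-!
An elliptic curve with square discriminant has no Galois-stable line in its `5`-torsion; the Frey
curve has none in its `p`-torsion for `p = 5` and `p = 7`.
-/

set_option autoImplicit false

open WeierstrassCurve WeierstrassCurve.Affine WeierstrassCurve.Affine.Point

namespace Fermat.Agent.Mazur.Small

/-- An elliptic curve with square discriminant has no Galois-stable line in its 5-torsion. -/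
theorem no_stable_line_five {W : WeierstrassCurve.Affine ℚ} [W.IsElliptic] {δ : ℚ}
    (hδ : W.Δ = δ ^ 2)
    {N : Submodule (ZMod 5) (Submodule.torsionBy ℤ (W⁄(AlgebraicClosure ℚ)).Point ((5 : ℕ) : ℤ))}
    (hst : IsGaloisStable ℚ N) (hbot : N ≠ ⊥) (htop : N ≠ ⊤) : False := by
  obtain ⟨t, ht, h1, -⟩ := exists_five_parameter_of_stable_line hst hbot htop
  have hq : t ^ 2 + 4 * t - 1 ≠ 0 := by
    intro h0
    have h5 : IsSquare ((5 : ℕ) : ℚ) := ⟨t + 2, by push_cast; linear_combination -h0⟩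
    rw [Rat.isSquare_natCast_iff] at h5
    obtain ⟨r, hr⟩ := h5
    have : r < 3 := by nlinarith
    interval_cases r <;> omega
  have hδ0 : δ ≠ 0 := by
    rintro rfl; exact W.isUnit_Δ.ne_zero (by rw [hδ]; ring)
  refine ht (curve_five_points (y := W.c₆ * t / (δ * (t ^ 2 + 4 * t - 1))) ?_)
  have key : W.c₆ ^ 2 * t = δ ^ 2 * ((t ^ 2 + 4 * t - 1) ^ 2 * (t ^ 2 + 22 * t + 125)) := by
    rw [← hδ]; linear_combination h1 + t * W.c_relation
  rw [div_pow, div_eq_iff (pow_ne_zero 2 (mul_ne_zero hδ0 hq))]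
  linear_combination t * key

variable (P : FreyPackage)

lemma frey_delta_square :
    P.freyCurve.Δ = ((P.a : ℚ) ^ P.p * (P.b : ℚ) ^ P.p * (P.c : ℚ) ^ P.p / 16) ^ 2 := by
  have h : (P.a : ℚ) ^ P.p + (P.b : ℚ) ^ P.p = (P.c : ℚ) ^ P.p := by exact_mod_cast P.hFLT
  rw [← h]
  simp only [FreyPackage.freyCurve, WeierstrassCurve.Δ, WeierstrassCurve.b₂, WeierstrassCurve.b₄,
    WeierstrassCurve.b₆, WeierstrassCurve.b₈]
  ring

lemma frey_delta_ne_zero : P.freyCurve.Δ ≠ 0 := by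
  rw [frey_delta_square]
  refine pow_ne_zero 2 (div_ne_zero (mul_ne_zero (mul_ne_zero ?_ ?_) ?_) (by norm_num))
  · exact pow_ne_zero _ (Int.cast_ne_zero.2 P.ha0)
  · exact pow_ne_zero _ (Int.cast_ne_zero.2 P.hb0)
  · exact pow_ne_zero _ (Int.cast_ne_zero.2 P.hc0)

lemma frey_isElliptic : P.freyCurve.IsElliptic :=
  ⟨isUnit_iff_ne_zero.2 (frey_delta_ne_zero P)⟩

lemma frey_c4_pos : 0 < P.freyCurve.c₄ := by
  have e : P.freyCurve.c₄ = ((P.a : ℚ) ^ P.p + (P.b : ℚ) ^ P.p / 2) ^ 2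
      + 3 / 4 * ((P.b : ℚ) ^ P.p) ^ 2 := by
    simp only [FreyPackage.freyCurve, WeierstrassCurve.c₄, WeierstrassCurve.b₂, WeierstrassCurve.b₄]
    ring
  have : 0 < ((P.b : ℚ) ^ P.p) ^ 2 := by
    have : (P.b : ℚ) ^ P.p ≠ 0 := pow_ne_zero _ (Int.cast_ne_zero.2 P.hb0)
    positivity
  rw [e]; positivity

lemma frey_b6 : P.freyCurve.b₆ = 0 := by
  simp [FreyPackage.freyCurve, WeierstrassCurve.b₆]

lemma frey_no_stable_line_five {p : ℕ} (hp : p = 5)
    {N : Submodule (ZMod p) (Submodule.torsionBy ℤ (P.freyCurve⁄(AlgebraicClosure ℚ)).Point p)}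
    (hst : IsGaloisStable ℚ N) (hbot : N ≠ ⊥) (htop : N ≠ ⊤) : False := by
  subst hp
  have := frey_isElliptic P
  exact no_stable_line_five (frey_delta_square P) hst hbot htop

lemma frey_no_stable_line_seven {p : ℕ} (hp : p = 7)
    {N : Submodule (ZMod p) (Submodule.torsionBy ℤ (P.freyCurve⁄(AlgebraicClosure ℚ)).Point p)}
    (hst : IsGaloisStable ℚ N) (hbot : N ≠ ⊥) (htop : N ≠ ⊤) : False := by
  subst hp
  have := frey_isElliptic P
  exact no_stable_line_seven (frey_delta_square P) (frey_c4_pos P).ne' (r := 0)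
    (by rw [frey_b6]; ring) hst hbot htop

/-- For `p ∈ {5, 7}` the Frey curve has no Galois-stable cofixed line. -/
theorem not_hasGaloisStableCofixedLine_five_seven (hp : P.p = 5 ∨ P.p = 7) :
    ¬ HasGaloisStableCofixedLine (K := AlgebraicClosure ℚ) ℚ P.freyCurve P.p := by
  rintro ⟨N, hst, hbot, htop, -⟩
  rcases hp with hp | hp
  · exact frey_no_stable_line_five P hp hst hbot htop
  · exact frey_no_stable_line_seven P hp hst hbot htop

end Fermat.Agent.Mazur.Small
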