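import Fermat.Agent.Mazur.Small.Basic

/-!
The elliptic curve `y² = t³ + 22 t² + 125 t` has no rational point with `t ≠ 0`.
-/

set_option autoImplicit false

namespace Fermat.Agent.Mazur.Small

lemma zmod_five_quad : ∀ r s : ZMod 5, r ^ 2 - 22 * s ^ 2 = 0 → r = 0 ∧ s = 0 := by
  decide

lemma five_dvd_of_dvd_quad {R S : ℤ} (h : (5 : ℤ) ∣ R ^ 2 - 22 * S ^ 2) :
    (5 : ℤ) ∣ R ∧ (5 : ℤ) ∣ S := by
  have h' := (ZMod.intCast_zmod_eq_zero_iff_dvd _ 5).2 h
  push_cast at h'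
  obtain ⟨h1, h2⟩ := zmod_five_quad _ _ h'
  exact ⟨(ZMod.intCast_zmod_eq_zero_iff_dvd _ 5).1 h1, (ZMod.intCast_zmod_eq_zero_iff_dvd _ 5).1 h2⟩

/-- Second half of the descent step. -/
lemma five_second_step {R S M : ℤ} (hc : IsCoprime R S) (hS : S ≠ 0) (hR : Odd R) (hM : Odd M)
    (h : M ^ 2 = R ^ 4 - 44 * R ^ 2 * S ^ 2 - 16 * S ^ 4) :
    ∃ G H : ℤ, IsCoprime G H ∧ (G * H) ^ 2 = S ^ 2 ∧
      R ^ 2 = G ^ 4 + 22 * G ^ 2 * H ^ 2 + 125 * H ^ 4 := by
  obtain ⟨k₁, hk₁⟩ := hR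
  obtain ⟨k₂, hk₂⟩ := hM
  obtain ⟨U, hU⟩ : (2 : ℤ) ∣ R ^ 2 - 22 * S ^ 2 - M :=
    ⟨2 * k₁ ^ 2 + 2 * k₁ - 11 * S ^ 2 - k₂, by subst hk₁ hk₂; ring⟩
  obtain ⟨V, hV⟩ : (2 : ℤ) ∣ R ^ 2 - 22 * S ^ 2 + M :=
    ⟨2 * k₁ ^ 2 + 2 * k₁ - 11 * S ^ 2 + k₂ + 1, by subst hk₁ hk₂; ring⟩
  have hUV : U * V = 5 ^ 3 * S ^ 4 := by
    have : 4 * (U * V) = 4 * (5 ^ 3 * S ^ 4) := by
      linear_combination -(R ^ 2 - 22 * S ^ 2 + M) * hU - (2 * U) * hV - h
    linarith
  have hsum : U + V = R ^ 2 - 22 * S ^ 2 := by linarith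
  have hS4 : 0 < S ^ 4 := by positivity
  have hK : 0 < R ^ 2 - 22 * S ^ 2 := by
    nlinarith [sq_nonneg M, mul_pos hS4 (show (0 : ℤ) < 16 by norm_num), sq_nonneg R]
  have hUpos : 0 < U := by
    by_contra hc'
    have : 0 < V := by linarith
    nlinarith
  have hVpos : 0 < V := by
    by_contra hc'
    nlinarith
  have hcop : IsCoprime U V := by
    refine isCoprime_of_forall_prime hUpos.ne' fun q hq h1 h2 => ?_
    have hqK : q ∣ R ^ 2 - 22 * S ^ 2 := hsum ▸ dvd_add h1 h2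
    have hqUV : q ∣ (5 : ℤ) ^ 3 * S ^ 4 := hUV ▸ dvd_mul_of_dvd_left h1 V
    rcases hq.dvd_or_dvd hqUV with h5 | hqS
    · have h5q : (5 : ℤ) ∣ q :=
        (hq.associated_of_dvd (show Prime (5 : ℤ) by norm_num) (hq.dvd_of_dvd_pow h5)).symm.dvd
      obtain ⟨hR5, hS5⟩ := five_dvd_of_dvd_quad (dvd_trans h5q hqK)
      exact not_prime_dvd_of_isCoprime hc (by norm_num) hR5 hS5
    · have hqS' := hq.dvd_of_dvd_pow hqS
      have hqR : q ∣ R ^ 2 := by
        have := dvd_add hqK (dvd_mul_of_dvd_right (dvd_pow hqS' (two_ne_zero)) (22 : ℤ))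
        simpa using this
      exact not_prime_dvd_of_isCoprime hc hq (hq.dvd_of_dvd_pow hqR) hqS'
  obtain ⟨G, H, hGH, hsq⟩ :=
    pos_mul_eq_prime_pow_fourth (show Prime (5 : ℤ) by norm_num) (by norm_num) hUpos hVpos hcop hUV
  refine ⟨G, H, ?_, hsq, ?_⟩
  · rcases hGH with ⟨e1, e2⟩ | ⟨e1, e2⟩ <;> rw [e1, e2] at hcop
    · exact (IsCoprime.pow_iff (by norm_num) (by norm_num)).1 hcop.of_mul_right_right
    · exact ((IsCoprime.pow_iff (by norm_num) (by norm_num)).1 hcop.of_mul_left_right).symm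
  · rcases hGH with ⟨e1, e2⟩ | ⟨e1, e2⟩ <;> rw [e1, e2] at hsum <;>
      linear_combination -hsum - 22 * hsq

lemma five_first_step {M e N : ℤ} (he : e ≠ 0) (hc : IsCoprime M e)
    (h : N ^ 2 = M ^ 4 + 22 * M ^ 2 * e ^ 2 + 125 * e ^ 4) :
    ∃ G H R : ℤ, IsCoprime G H ∧ H ≠ 0 ∧ H ^ 2 < e ^ 2 ∧
      R ^ 2 = G ^ 4 + 22 * G ^ 2 * H ^ 2 + 125 * H ^ 4 := by
  wlog hN : 0 ≤ N generalizing N
  · exact this (N := -N) (by rw [neg_sq, h]) (by linarith)
  set A := M ^ 2 + 11 * e ^ 2 with hA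
  have hA' : N ^ 2 = A ^ 2 + 4 * e ^ 4 := by rw [hA]; linear_combination h
  have he4 : 0 < e ^ 4 := by positivity
  have hA0 : 0 ≤ A := by positivity
  have hNA : A < N := by nlinarith
  -- the case of two odd numbers is impossible
  by_cases hodd : Odd M ∧ Odd e
  · exfalso
    obtain ⟨hM, he'⟩ := hodd
    obtain ⟨a, ha⟩ : ∃ a, M ^ 2 = 8 * a + 1 := ⟨M ^ 2 / 8, by have := odd_sq_emod_eight hM; omega⟩
    obtain ⟨b, hb⟩ : ∃ b, e ^ 2 = 8 * b + 1 := ⟨e ^ 2 / 8, by have := odd_sq_emod_eight he'; omega⟩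
    set K := 2 * a ^ 2 + 44 * a * b + 250 * b ^ 2 + 6 * a + 68 * b + 4
    have hN2 : N ^ 2 = 32 * K + 20 := by
      linear_combination h + (M ^ 2 + 8 * a + 1 + 22 * e ^ 2) * ha +
        (22 * (8 * a + 1) + 125 * (e ^ 2 + 8 * b + 1)) * hb
    obtain ⟨n, rfl⟩ := Int.prime_two.dvd_of_dvd_pow (n := 2) (a := N) ⟨16 * K + 10, by rw [hN2]; ring⟩
    rcases Int.even_or_odd n with ⟨c, rfl⟩ | hn
    · have : (2 * (c + c)) ^ 2 = 16 * c ^ 2 := by ring
      omega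
    · have := odd_sq_emod_eight hn
      have : (2 * n) ^ 2 = 4 * n ^ 2 := by ring
      omega
  -- opposite parity
  have hAodd : Odd A := by
    rw [hA]
    rcases Int.even_or_odd M with hM | hM <;> rcases Int.even_or_odd e with hE | hE
    · exact absurd (not_prime_dvd_of_isCoprime hc Int.prime_two hM.two_dvd hE.two_dvd) (by simp)
    · exact (hM.pow_of_ne_zero two_ne_zero).add_odd ((by decide : Odd (11 : ℤ)).mul hE.pow)
    · exact hM.pow.add_even ((hE.pow_of_ne_zero two_ne_zero).mul_left _)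
    · exact absurd ⟨hM, hE⟩ hodd
  have hNodd : Odd N := by
    have : Odd (N ^ 2) := by rw [hA']; exact hAodd.pow.add_even ⟨2 * e ^ 4, by ring⟩
    exact (Int.odd_pow' two_ne_zero).1 this
  obtain ⟨i, hi⟩ := hNodd
  obtain ⟨j, hj⟩ := hAodd
  have hUV : (i - j) * (i + j + 1) = e ^ 4 := by
    have : 4 * ((i - j) * (i + j + 1)) = 4 * e ^ 4 := by
      rw [hi, hj] at hA'; linear_combination hA'
    linarith
  have hUpos : 0 < i - j := by linarith
  have hVpos : 0 < i + j + 1 := by linarith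
  have hcop : IsCoprime (i - j) (i + j + 1) := by
    refine isCoprime_of_forall_prime hUpos.ne' fun q hq h1 h2 => ?_
    have hqA : q ∣ A := by
      have e1 : A = i + j + 1 - (i - j) := by rw [hj]; ring
      rw [e1]; exact dvd_sub h2 h1
    have hqe : q ∣ e := hq.dvd_of_dvd_pow (hUV ▸ dvd_mul_of_dvd_left h1 _)
    have hqM : q ∣ M ^ 2 := by
      have := dvd_sub hqA (dvd_mul_of_dvd_right (dvd_pow hqe two_ne_zero) (11 : ℤ))
      rw [hA] at this; simpa using this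
    exact not_prime_dvd_of_isCoprime hc hq (hq.dvd_of_dvd_pow hqM) hqe
  obtain ⟨Q, R, hQ, hR, hQR⟩ := pos_mul_eq_fourth hUpos hVpos hcop hUV
  have hM2 : M ^ 2 = R ^ 4 - 11 * R ^ 2 * Q ^ 2 - Q ^ 4 := by
    linear_combination hR - hQ + (11 : ℤ) * hQR + hj - hA
  have hcQR : IsCoprime R Q := by
    rw [hQ, hR] at hcop
    exact ((IsCoprime.pow_iff (by norm_num) (by norm_num)).1 hcop).symm
  have hQRodd : Odd (R ^ 4 - Q ^ 4) := by
    rw [← hR, ← hQ]; exact ⟨j, by ring⟩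
  have hQeven : Even Q := by
    by_contra hQo
    have hQo' := Int.not_even_iff_odd.1 hQo
    have hRe : Even R := by
      by_contra hRo
      simp [parity_simps, hQo, hRo] at hQRodd
    obtain ⟨l, rfl⟩ := hRe
    obtain ⟨l', hl'⟩ : ∃ l', Q ^ 4 = 4 * l' + 1 := by
      obtain ⟨m, rfl⟩ := hQo'
      exact ⟨4 * m ^ 4 + 8 * m ^ 3 + 6 * m ^ 2 + 2 * m, by ring⟩
    have : M ^ 2 % 4 = 3 := by
      rw [hM2, hl']
      have : (l + l) ^ 4 - 11 * (l + l) ^ 2 * Q ^ 2 - (4 * l' + 1)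
          = 4 * (4 * l ^ 4 - 11 * l ^ 2 * Q ^ 2 - l' - 1) + 3 := by ring
      omega
    rcases Int.even_or_odd M with hM | hM
    · obtain ⟨m, rfl⟩ := hM
      have : (m + m) ^ 2 = 4 * m ^ 2 := by ring
      omega
    · have := Int.sq_mod_four_eq_one_of_odd hM
      omega
  have hRodd : Odd R := by
    by_contra hRe
    have := ((Int.not_odd_iff_even.1 hRe).pow_of_ne_zero four_ne_zero).sub (hQeven.pow_of_ne_zero four_ne_zero)
    exact Int.not_even_iff_odd.2 hQRodd this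
  obtain ⟨S, rfl⟩ := hQeven
  have hS : S ≠ 0 := by
    rintro rfl
    simp at hQ; omega
  have hModd : Odd M := by
    by_contra hMe
    have : Odd e := by
      by_contra hee
      exact not_prime_dvd_of_isCoprime hc Int.prime_two (Int.not_odd_iff_even.1 hMe).two_dvd
        (Int.not_odd_iff_even.1 hee).two_dvd
    have h1 : Even (e ^ 2) := by rw [← hQR]; exact ⟨2 * (S * R) ^ 2, by ring⟩
    simp [parity_simps, Int.not_even_iff_odd.2 this] at h1
  have hcRS : IsCoprime R S := by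
    rw [show S + S = 2 * S by ring] at hcQR
    exact hcQR.of_mul_right_right
  obtain ⟨G, H, hcGH, hGH, hR2⟩ := five_second_step hcRS hS hRodd hModd
    (by linear_combination hM2)
  have hH : H ≠ 0 := by
    rintro rfl
    exact hS (pow_eq_zero_iff two_ne_zero |>.1 (by simpa using hGH.symm))
  refine ⟨G, H, R, hcGH, hH, ?_, hR2⟩
  have h1 : H ^ 2 ≤ S ^ 2 := by
    rw [← hGH]; exact int_sq_le_of_dvd (Dvd.intro_left G rfl) (by intro hz; rw [hz] at hGH; exact hS (pow_eq_zero_iff two_ne_zero |>.1 (by simpa using hGH.symm)))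
  have hR0 : 0 < R ^ 2 := by
    have : R ≠ 0 := by rintro rfl; simp at hRodd
    positivity
  have : 0 < S ^ 2 := by positivity
  calc H ^ 2 ≤ S ^ 2 := h1
    _ < ((S + S) * R) ^ 2 := by nlinarith
    _ = e ^ 2 := hQR

lemma five_descent {M e N : ℤ} (hc : IsCoprime M e)
    (h : N ^ 2 = M ^ 4 + 22 * M ^ 2 * e ^ 2 + 125 * e ^ 4) : e = 0 := by
  induction hn : e.natAbs using Nat.strong_induction_on generalizing M e N with
  | _ n ih =>
    by_contra he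
    obtain ⟨G, H, R, hcGH, hH, hlt, hR⟩ := five_first_step he hc h
    subst hn
    exact hH (ih H.natAbs (Int.natAbs_lt_iff_sq_lt.2 hlt) hcGH hR rfl)

end Fermat.Agent.Mazur.Small
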