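import Fermat.Agent.Mazur.Small.TateInvariants
import Fermat.Agent.Mazur.Small.Line
import Fermat.Agent.EC.Torsion.Galois
import Fermat.Agent.Arith.Places

/-!
A Galois-stable line in the 5-torsion of an elliptic curve over `ℚ` gives a rational `t` with
`j t = (t² + 10 t + 5)³`.
-/

set_option autoImplicit false

open WeierstrassCurve WeierstrassCurve.Affine WeierstrassCurve.Affine.Point

namespace Fermat.Agent.Mazur.Small

section Field

variable {F : Type*} [Field F] {W : WeierstrassCurve.Affine F}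

/-- The coordinate on `X₀(5)` attached to a point of order 5. -/
def pointFive : W.Point → F
  | .zero => 0
  | .some x y _ => tateB W x y - 1 / tateB W x y - 11

lemma pointFive_some {x y : F} (h : W.Nonsingular x y) :
    pointFive (Point.some _ _ h) = tateB W x y - 1 / tateB W x y - 11 := rfl

variable [DecidableEq F]

lemma five_parameters {x y : F} (h : W.Nonsingular x y) (h5 : (5 : ℕ) • Point.some _ _ h = 0) :
    ∃ u b : F, u ≠ 0 ∧ b ≠ 0 ∧ tateA3 W x y ≠ 0 ∧ tateB W x y = b ∧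
      tateA1 W x y = u * (1 - b) ∧ tateA2 W x y = -b * u ^ 2 ∧ tateA3 W x y = -b * u ^ 3 := by
  have h3 := tateA3_ne_zero_of_prime Nat.prime_five (by norm_num) h h5
  have h2 := tateA2_ne_zero_of_prime Nat.prime_five (by norm_num) h h3 h5
  obtain ⟨hd, ed⟩ := exists_double h h3
  obtain ⟨y', ht, et⟩ := exists_triple h h3 h2
  have hneg : Point.some _ _ ht = -Point.some _ _ hd := by
    rw [eq_neg_iff_add_eq_zero, ← et, ← ed, ← add_nsmul]; exact h5
  have hx := (X_eq_iff (h₁ := ht) (h₂ := hd)).2 (Or.inr hneg)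
  obtain ⟨u, b, c, hu, hb, hB, -, e1, e2, e3⟩ := exists_tate_parameters W x y h3 h2
  have hcb : c = b := by
    rw [tateX2, e1, e2, e3] at hx
    field_simp at hx
    have : (c - b) * u ^ 2 = 0 := by linear_combination hx
    rcases mul_eq_zero.1 this with h0 | h0
    · linear_combination h0
    · exact absurd h0 (pow_ne_zero 2 hu)
  exact ⟨u, b, hu, hb, h3, hB, hcb ▸ e1, e2, e3⟩

lemma pointFive_two_nsmul {P : W.Point} (hP : P ≠ 0) (h5 : (5 : ℕ) • P = 0) :
    pointFive ((2 : ℕ) • P) = pointFive P := by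
  rcases P with _ | ⟨x, y, h⟩
  · exact absurd rfl hP
  obtain ⟨u, b, hu, hb, h3, hB, e1, e2, e3⟩ := five_parameters h h5
  obtain ⟨hd, ed⟩ := exists_double h h3
  rw [ed, pointFive_some, pointFive_some]
  have h3' : tateA1 W x y * tateA2 W x y - tateA3 W x y = b ^ 2 * u ^ 3 := by
    rw [e1, e2, e3]; ring
  have h3'0 : tateA1 W x y * tateA2 W x y - tateA3 W x y ≠ 0 :=
    h3' ▸ mul_ne_zero (pow_ne_zero 2 hb) (pow_ne_zero 3 hu)
  have hμ : u * b = (tateA2 W x y ^ 2 - tateA1 W x y ^ 2 * tateA2 W x y +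
      tateA1 W x y * tateA3 W x y) / (tateA1 W x y * tateA2 W x y - tateA3 W x y) := by
    rw [h3', e1, e2, e3]; field_simp; ring
  have hB' : tateB W (tateX2 W x y) (tateY2 W x y) = -1 / b := by
    rw [tateB, tateA3_double, tateA2_double W x y h3 h3'0 _ hμ, h3', e1, e2]
    field_simp
    ring
  rw [hB', hB]
  field_simp
  ring

lemma pointFive_nsmul {P : W.Point} (hP : P ≠ 0) (h5 : (5 : ℕ) • P = 0) {k : ℕ}
    (hk : k • P ≠ 0) : pointFive (k • P) = pointFive P :=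
  invariant_nsmul Nat.prime_five pointFive (by norm_num)
    (fun _ hQ hQ5 => pointFive_two_nsmul hQ hQ5) (by decide) hP h5 hk

lemma pointFive_relation {P : W.Point} (hP : P ≠ 0) (h5 : (5 : ℕ) • P = 0) :
    W.c₄ ^ 3 * pointFive P = W.Δ * (pointFive P ^ 2 + 10 * pointFive P + 5) ^ 3 ∧
      (W.Δ ≠ 0 → pointFive P ≠ 0) := by
  rcases P with _ | ⟨x, y, h⟩
  · exact absurd rfl hP
  obtain ⟨u, b, hu, hb, h3, hB, e1, e2, e3⟩ := five_parameters h h5
  rw [pointFive_some, hB]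
  have hΔ : W.Δ = u ^ 12 * b ^ 6 * (b - 1 / b - 11) := by
    rw [delta_eq W x y h3 h.1, e1, e2, e3]; field_simp; ring
  refine ⟨?_, fun h0 ht => h0 (by rw [hΔ, ht, mul_zero])⟩
  rw [hΔ, c4_eq W x y h3, e1, e2, e3]
  field_simp
  ring

end Field

section Galois

variable {W : WeierstrassCurve.Affine ℚ}

lemma pointFive_smul (σ : AlgebraicClosure ℚ ≃ₐ[ℚ] AlgebraicClosure ℚ)
    (P : (W⁄(AlgebraicClosure ℚ)).Point) : pointFive (σ • P) = σ (pointFive P) := by
  rcases P with _ | ⟨x, y, h⟩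
  · exact (_root_.map_zero σ).symm
  · rw [algEquiv_smul_def, Point.map_some, pointFive_some, pointFive_some]
    simp only [map_sub, map_div₀, _root_.map_one, map_ofNat]
    exact congrArg (fun z => z - 1 / z - 11) (tate_algEquiv σ x y).1

/-- An equivariant function unchanged by multiples takes a rational value at a point spanning a
Galois-stable line. -/
lemma exists_rat_of_invariant
    (φ : (W⁄(AlgebraicClosure ℚ)).Point → AlgebraicClosure ℚ)
    (hφ : ∀ (σ : AlgebraicClosure ℚ ≃ₐ[ℚ] AlgebraicClosure ℚ) Q, φ (σ • Q) = σ (φ Q))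
    {P : (W⁄(AlgebraicClosure ℚ)).Point} (hP : P ≠ 0)
    (hinv : ∀ k : ℕ, k • P ≠ 0 → φ (k • P) = φ P)
    (hgal : ∀ σ : AlgebraicClosure ℚ ≃ₐ[ℚ] AlgebraicClosure ℚ, ∃ k : ℕ, σ • P = k • P) :
    ∃ t : ℚ, algebraMap ℚ (AlgebraicClosure ℚ) t = φ P := by
  refine (InfiniteGalois.mem_range_algebraMap_iff_fixed _).2 fun σ => ?_
  obtain ⟨k, hk⟩ := hgal σ
  rw [← hφ, hk]
  refine hinv k fun h0 => hP ?_
  rw [h0] at hk
  exact (smul_eq_zero_iff_eq σ).1 hk

/-- A Galois-stable cyclic subgroup of order 5 gives a rational point on `X₀(5)`. -/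
theorem exists_five_parameter {P : (W⁄(AlgebraicClosure ℚ)).Point} (hP : P ≠ 0)
    (h5 : (5 : ℕ) • P = 0)
    (hgal : ∀ σ : AlgebraicClosure ℚ ≃ₐ[ℚ] AlgebraicClosure ℚ, ∃ k : ℕ, σ • P = k • P) :
    ∃ t : ℚ, W.c₄ ^ 3 * t = W.Δ * (t ^ 2 + 10 * t + 5) ^ 3 ∧ (W.Δ ≠ 0 → t ≠ 0) := by
  obtain ⟨t, ht⟩ := exists_rat_of_invariant pointFive pointFive_smul hP
    (fun _ hk => pointFive_nsmul hP h5 hk) hgal
  obtain ⟨h1, h2⟩ := pointFive_relation hP h5
  have hc : (W⁄(AlgebraicClosure ℚ)).c₄ = algebraMap ℚ (AlgebraicClosure ℚ) W.c₄ :=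
    WeierstrassCurve.map_c₄ ..
  have hd : (W⁄(AlgebraicClosure ℚ)).Δ = algebraMap ℚ (AlgebraicClosure ℚ) W.Δ :=
    WeierstrassCurve.map_Δ ..
  refine ⟨t, (algebraMap ℚ (AlgebraicClosure ℚ)).injective ?_, fun h0 ht0 => ?_⟩
  · rw [← ht, hc, hd] at h1
    simpa [map_ofNat] using h1
  · refine h2 ?_ (by rw [← ht, ht0, _root_.map_zero])
    rw [hd]
    simpa using h0

/-- A Galois-stable line in `E[5]` gives a rational `t` with `j t = (t² + 10 t + 5)³`. -/
theorem exists_five_parameter_of_stable_line [W.IsElliptic]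
    {N : Submodule (ZMod 5) (Submodule.torsionBy ℤ (W⁄(AlgebraicClosure ℚ)).Point ((5 : ℕ) : ℤ))}
    (hst : IsGaloisStable ℚ N) (hbot : N ≠ ⊥) (htop : N ≠ ⊤) :
    ∃ t : ℚ, t ≠ 0 ∧ W.c₄ ^ 3 * t = W.Δ * (t ^ 2 + 10 * t + 5) ^ 3 ∧
      W.j * t = (t ^ 2 + 10 * t + 5) ^ 3 := by
  obtain ⟨P, hP, h5, hgal⟩ := exists_point_of_stable_line W Nat.prime_five
    (EC.Torsion.natCard_torsionBy_algebraicClosureRat W (by norm_num)) hst hbot htop
  obtain ⟨t, h1, h2⟩ := exists_five_parameter hP h5 hgal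
  have hΔ : W.Δ ≠ 0 := W.isUnit_Δ.ne_zero
  refine ⟨t, h2 hΔ, h1, ?_⟩
  rw [WeierstrassCurve.j, Units.val_inv_eq_inv_val, WeierstrassCurve.coe_Δ', mul_assoc, h1,
    inv_mul_cancel_left₀ hΔ]

end Galois

end Fermat.Agent.Mazur.Small
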