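import Fermat.Agent.Mazur.Small.Five
import Fermat.Agent.Mazur.Small.PointsSeven

/-!
A Galois-stable line in the 7-torsion gives a rational `t` with
`j t = (t² + 13 t + 49)(t² + 5 t + 1)³`; with a rational root of the 2-division polynomial this is
a rational point on `X₀(14)`, so the discriminant is not a square.
-/

set_option autoImplicit false

open WeierstrassCurve WeierstrassCurve.Affine WeierstrassCurve.Affine.Point

namespace Fermat.Agent.Mazur.Small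

section Field

variable {F : Type*} [Field F] {W : WeierstrassCurve.Affine F}

/-- The coordinate on `X₀(7)` in terms of the parameter of the Tate normal form. -/
def sevenT (d : F) : F := (d ^ 3 - 8 * d ^ 2 + 5 * d + 1) / (d ^ 2 - d)

/-- The coordinate on `X₀(7)` attached to a point of order 7. -/
def pointSeven : W.Point → F
  | .zero => 0
  | .some x y _ => sevenT (tateB W x y / tateC W x y)

lemma pointSeven_some {x y : F} (h : W.Nonsingular x y) :
    pointSeven (Point.some _ _ h) = sevenT (tateB W x y / tateC W x y) := rfl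

variable [DecidableEq F]

lemma seven_parameters {x y : F} (h : W.Nonsingular x y) (h7 : (7 : ℕ) • Point.some _ _ h = 0) :
    ∃ u d : F, u ≠ 0 ∧ d ≠ 0 ∧ d - 1 ≠ 0 ∧ tateA3 W x y ≠ 0 ∧
      tateB W x y / tateC W x y = d ∧
      tateA1 W x y = u * (1 - d * (d - 1)) ∧ tateA2 W x y = -(d ^ 2 * (d - 1)) * u ^ 2 ∧
      tateA3 W x y = -(d ^ 2 * (d - 1)) * u ^ 3 := by
  have hp : Nat.Prime 7 := by norm_num
  have h3 := tateA3_ne_zero_of_prime hp (by norm_num) h h7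
  have h2 := tateA2_ne_zero_of_prime hp (by norm_num) h h3 h7
  obtain ⟨hd, ed⟩ := exists_double h h3
  obtain ⟨y', ht, et⟩ := exists_triple h h3 h2
  have h7d : (7 : ℕ) • Point.some _ _ hd = 0 := by
    rw [← ed, smul_comm, h7, smul_zero]
  have h3d := tateA3_ne_zero_of_prime hp (by norm_num) hd h7d
  obtain ⟨hq, eq⟩ := exists_double hd h3d
  have hneg : Point.some _ _ ht = -Point.some _ _ hq := by
    rw [eq_neg_iff_add_eq_zero, ← et, ← eq, ← ed, ← mul_nsmul, ← add_nsmul]; exact h7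
  have hx := (X_eq_iff (h₁ := ht) (h₂ := hq)).2 (Or.inr hneg)
  obtain ⟨u, b, c, hu, hb, hB, hC, e1, e2, e3⟩ := exists_tate_parameters W x y h3 h2
  have h3' : tateA1 W x y * tateA2 W x y - tateA3 W x y = b * c * u ^ 3 := by
    rw [e1, e2, e3]; ring
  have h3'0 : tateA1 W x y * tateA2 W x y - tateA3 W x y ≠ 0 := by
    rw [← tateA3_double]; exact h3d
  have hc : c ≠ 0 := fun h0 => h3'0 (by rw [h3', h0, mul_zero, zero_mul])
  have hμ : u * (b - c + c ^ 2) / c = (tateA2 W x y ^ 2 - tateA1 W x y ^ 2 * tateA2 W x y +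
      tateA1 W x y * tateA3 W x y) / (tateA1 W x y * tateA2 W x y - tateA3 W x y) := by
    rw [h3', e1, e2, e3]; field_simp; ring
  rw [tateX2.eq_1 W (tateX2 W x y), tateA2_double W x y h3 h3'0 _ hμ, tateX2, e1, e2, e3] at hx
  field_simp at hx
  have hrel : c ^ 3 = b * (b - c) := by
    have : (c ^ 3 - b * (b - c)) * u ^ 2 = 0 := by linear_combination hx
    rcases mul_eq_zero.1 this with h0 | h0
    · linear_combination h0
    · exact absurd h0 (pow_ne_zero 2 hu)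
  set d := b / c with hd'
  have hbd : b = c * d := by rw [hd']; field_simp
  have hcd : c = d * (d - 1) := by
    rw [hbd] at hrel
    have : (c - d * (d - 1)) * c ^ 2 = 0 := by linear_combination hrel
    rcases mul_eq_zero.1 this with h0 | h0
    · linear_combination h0
    · exact absurd h0 (pow_ne_zero 2 hc)
  have hd0 : d ≠ 0 := left_ne_zero_of_mul (hcd ▸ hc)
  have hd1 : d - 1 ≠ 0 := right_ne_zero_of_mul (hcd ▸ hc)
  have hbd' : b = d ^ 2 * (d - 1) := by rw [hbd, hcd]; ring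
  exact ⟨u, d, hu, hd0, hd1, h3, by rw [hB, hC], hcd ▸ e1, hbd' ▸ e2, hbd' ▸ e3⟩

omit [DecidableEq F] in
lemma sevenT_rotate {d : F} (hd : d ≠ 0) (hd1 : d - 1 ≠ 0) :
    sevenT ((d - 1) / d) = sevenT d := by
  simp only [sevenT]
  rw [show d ^ 2 - d = d * (d - 1) by ring,
    show ((d - 1) / d) ^ 2 - (d - 1) / d = -(d - 1) / d ^ 2 by field_simp; ring]
  field_simp
  ring

lemma pointSeven_two_nsmul {P : W.Point} (hP : P ≠ 0) (h7 : (7 : ℕ) • P = 0) :
    pointSeven ((2 : ℕ) • P) = pointSeven P := by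
  rcases P with _ | ⟨x, y, h⟩
  · exact absurd rfl hP
  obtain ⟨u, d, hu, hd, hd1, h3, hD, e1, e2, e3⟩ := seven_parameters h h7
  obtain ⟨hq, eq⟩ := exists_double h h3
  rw [eq, pointSeven_some, pointSeven_some, hD]
  have h3' : tateA1 W x y * tateA2 W x y - tateA3 W x y = d ^ 3 * (d - 1) ^ 2 * u ^ 3 := by
    rw [e1, e2, e3]; ring
  have h3'0 : tateA1 W x y * tateA2 W x y - tateA3 W x y ≠ 0 := h3' ▸ mul_ne_zero
    (mul_ne_zero (pow_ne_zero 3 hd) (pow_ne_zero 2 hd1)) (pow_ne_zero 3 hu)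
  have hμ : u * (d ^ 2 - 1) = (tateA2 W x y ^ 2 - tateA1 W x y ^ 2 * tateA2 W x y +
      tateA1 W x y * tateA3 W x y) / (tateA1 W x y * tateA2 W x y - tateA3 W x y) := by
    rw [h3', e1, e2, e3]; field_simp; ring
  have hA2 : tateA2 W (tateX2 W x y) (tateY2 W x y) = d * (d - 1) ^ 2 * u ^ 2 := by
    rw [tateA2_double W x y h3 h3'0 _ hμ, e1, e2]; ring
  have hB' : tateB W (tateX2 W x y) (tateY2 W x y) = -(d - 1) ^ 2 / d ^ 3 := by
    rw [tateB, tateA3_double, hA2, h3']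
    field_simp
  have hC' : tateC W (tateX2 W x y) (tateY2 W x y) = -(d - 1) / d ^ 2 := by
    rw [tateC, tateA3_double, tateA1_double W x y h3 h3'0, ← hμ, hA2, h3', e1]
    field_simp
    ring
  rw [hB', hC', show -(d - 1) ^ 2 / d ^ 3 / (-(d - 1) / d ^ 2) = (d - 1) / d by field_simp]
  exact sevenT_rotate hd hd1

lemma pointSeven_neg {P : W.Point} (hP : P ≠ 0) (h7 : (7 : ℕ) • P = 0) :
    pointSeven (-P) = pointSeven P := by
  rcases P with _ | ⟨x, y, h⟩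
  · exact absurd rfl hP
  have h3 := tateA3_ne_zero_of_prime (by norm_num) (by norm_num) h h7
  rw [neg_some, pointSeven_some, pointSeven_some, tateB_negY W x y h3, tateC_negY W x y h3]

lemma pointSeven_nsmul {P : W.Point} (hP : P ≠ 0) (h7 : (7 : ℕ) • P = 0) {k : ℕ}
    (hk : k • P ≠ 0) : pointSeven (k • P) = pointSeven P := by
  rw [nsmul_eq_mod_nsmul k h7] at hk ⊢
  obtain ⟨i, -, hi⟩ := (by decide : ∀ j < 7, j ≠ 0 →
      ∃ i < 3, 2 ^ i % 7 = j ∨ 2 ^ i % 7 + j = 7) _ (Nat.mod_lt k (by norm_num))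
    (fun h0 => hk (by rw [h0, zero_nsmul]))
  have h2 := fun (Q : W.Point) (hQ : Q ≠ 0) (hQ7 : (7 : ℕ) • Q = 0) =>
    pointSeven_two_nsmul hQ hQ7
  have hn7 : (7 : ℕ) • (-P) = 0 := by rw [smul_neg, h7, _root_.neg_zero]
  rcases hi with hi | hi
  · rw [← hi, ← nsmul_eq_mod_nsmul (2 ^ i) h7]
    exact invariant_two_pow_nsmul (by norm_num) pointSeven (by norm_num) h2 hP h7 i
  · have e : (k % 7) • P = 2 ^ i • (-P) := by
      rw [nsmul_eq_mod_nsmul (2 ^ i) hn7, smul_neg, eq_neg_iff_add_eq_zero, ← add_nsmul,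
        add_comm, hi, h7]
    rw [e, invariant_two_pow_nsmul (by norm_num) pointSeven (by norm_num) h2 (neg_ne_zero.2 hP)
      hn7 i, pointSeven_neg hP h7]

lemma pointSeven_relation {P : W.Point} (hP : P ≠ 0) (h7 : (7 : ℕ) • P = 0) :
    W.c₄ ^ 3 * pointSeven P = W.Δ * ((pointSeven P ^ 2 + 13 * pointSeven P + 49) *
        (pointSeven P ^ 2 + 5 * pointSeven P + 1) ^ 3) ∧
      (W.Δ ≠ 0 → pointSeven P ≠ 0) := by
  rcases P with _ | ⟨x, y, h⟩
  · exact absurd rfl hP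
  obtain ⟨u, d, hu, hd, hd1, h3, hD, e1, e2, e3⟩ := seven_parameters h h7
  rw [pointSeven_some, hD]
  have hdd : d ^ 2 - d = d * (d - 1) := by ring
  have hΔ : W.Δ = u ^ 12 * d ^ 8 * (d - 1) ^ 8 * sevenT d := by
    rw [delta_eq W x y h3 h.1, e1, e2, e3, sevenT, hdd]; field_simp; ring
  refine ⟨?_, fun h0 ht => h0 (by rw [hΔ, ht, mul_zero])⟩
  set S := d ^ 6 - 11 * d ^ 5 + 30 * d ^ 4 - 15 * d ^ 3 - 10 * d ^ 2 + 5 * d + 1 with hS
  have hc4 : W.c₄ = u ^ 4 * ((d ^ 2 - d + 1) * S) := by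
    rw [c4_eq W x y h3, e1, e2, e3, hS]; ring
  have hM : sevenT d ^ 2 + 5 * sevenT d + 1 = S / (d * (d - 1)) ^ 2 := by
    rw [sevenT, hdd, hS]; field_simp; ring
  have hL : sevenT d ^ 2 + 13 * sevenT d + 49 = (d ^ 2 - d + 1) ^ 3 / (d * (d - 1)) ^ 2 := by
    rw [sevenT, hdd]; field_simp; ring
  rw [hM, hL, hΔ, hc4]
  field_simp

end Field

section Galois

variable {W : WeierstrassCurve.Affine ℚ}

lemma pointSeven_smul (σ : AlgebraicClosure ℚ ≃ₐ[ℚ] AlgebraicClosure ℚ)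
    (P : (W⁄(AlgebraicClosure ℚ)).Point) : pointSeven (σ • P) = σ (pointSeven P) := by
  rcases P with _ | ⟨x, y, h⟩
  · exact (_root_.map_zero σ).symm
  · rw [algEquiv_smul_def, Point.map_some, pointSeven_some, pointSeven_some]
    obtain ⟨hb, hc⟩ := tate_algEquiv (V := W) σ x y
    simp only [sevenT, map_sub, map_div₀, map_add, map_mul, map_pow, _root_.map_one, map_ofNat]
    exact congrArg₂ (fun b c => ((b / c) ^ 3 - 8 * (b / c) ^ 2 + 5 * (b / c) + 1) /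
      ((b / c) ^ 2 - b / c)) hb hc

/-- A Galois-stable cyclic subgroup of order 7 gives a rational point on `X₀(7)`. -/
theorem exists_seven_parameter {P : (W⁄(AlgebraicClosure ℚ)).Point} (hP : P ≠ 0)
    (h7 : (7 : ℕ) • P = 0)
    (hgal : ∀ σ : AlgebraicClosure ℚ ≃ₐ[ℚ] AlgebraicClosure ℚ, ∃ k : ℕ, σ • P = k • P) :
    ∃ t : ℚ, W.c₄ ^ 3 * t = W.Δ * ((t ^ 2 + 13 * t + 49) * (t ^ 2 + 5 * t + 1) ^ 3) ∧
      (W.Δ ≠ 0 → t ≠ 0) := by
  obtain ⟨t, ht⟩ := exists_rat_of_invariant pointSeven pointSeven_smul hP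
    (fun _ hk => pointSeven_nsmul hP h7 hk) hgal
  obtain ⟨h1, h2⟩ := pointSeven_relation hP h7
  have hc : (W⁄(AlgebraicClosure ℚ)).c₄ = algebraMap ℚ (AlgebraicClosure ℚ) W.c₄ :=
    WeierstrassCurve.map_c₄ ..
  have hd : (W⁄(AlgebraicClosure ℚ)).Δ = algebraMap ℚ (AlgebraicClosure ℚ) W.Δ :=
    WeierstrassCurve.map_Δ ..
  refine ⟨t, (algebraMap ℚ (AlgebraicClosure ℚ)).injective ?_, fun h0 ht0 => ?_⟩
  · rw [← ht, hc, hd] at h1
    simpa [map_ofNat] using h1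
  · refine h2 ?_ (by rw [← ht, ht0, _root_.map_zero])
    rw [hd]
    simpa using h0

/-- A Galois-stable line in `E[7]` gives a rational point on `X₀(7)` over `j(E)`. -/
theorem exists_seven_parameter_of_stable_line [W.IsElliptic]
    {N : Submodule (ZMod 7) (Submodule.torsionBy ℤ (W⁄(AlgebraicClosure ℚ)).Point ((7 : ℕ) : ℤ))}
    (hst : IsGaloisStable ℚ N) (hbot : N ≠ ⊥) (htop : N ≠ ⊤) :
    ∃ t : ℚ, t ≠ 0 ∧
      W.c₄ ^ 3 * t = W.Δ * ((t ^ 2 + 13 * t + 49) * (t ^ 2 + 5 * t + 1) ^ 3) := by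
  obtain ⟨P, hP, h7, hgal⟩ := exists_point_of_stable_line W (by norm_num)
    (EC.Torsion.natCard_torsionBy_algebraicClosureRat W (by norm_num)) hst hbot htop
  obtain ⟨t, h1, h2⟩ := exists_seven_parameter hP h7 hgal
  exact ⟨t, h2 W.isUnit_Δ.ne_zero, h1⟩

lemma zmod_two_quartic : ∀ m n : ZMod 2,
    m ^ 4 + 14 * m ^ 3 * n + 63 * m ^ 2 * n ^ 2 + 70 * m * n ^ 3 - 7 * n ^ 4 = 0 →
      m = 0 ∧ n = 0 := by
  decide

lemma seven_quartic_ne_zero (t : ℚ) : t ^ 4 + 14 * t ^ 3 + 63 * t ^ 2 + 70 * t - 7 ≠ 0 := by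
  intro h
  have hn : (t.den : ℚ) ≠ 0 := by exact_mod_cast t.den_nz
  have hq : t.num ^ 4 + 14 * t.num ^ 3 * t.den + 63 * t.num ^ 2 * (t.den : ℤ) ^ 2
      + 70 * t.num * (t.den : ℤ) ^ 3 - 7 * (t.den : ℤ) ^ 4 = 0 := by
    rw [← Rat.num_div_den t] at h
    field_simp at h
    exact_mod_cast (by push_cast; linear_combination h :
      ((t.num ^ 4 + 14 * t.num ^ 3 * t.den + 63 * t.num ^ 2 * (t.den : ℤ) ^ 2
        + 70 * t.num * (t.den : ℤ) ^ 3 - 7 * (t.den : ℤ) ^ 4 : ℤ) : ℚ) = 0)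
  have h2 := congrArg (fun z : ℤ => (z : ZMod 2)) hq
  push_cast at h2
  obtain ⟨h1, h3⟩ := zmod_two_quartic _ _ h2
  exact not_prime_dvd_of_isCoprime t.isCoprime_num_den Int.prime_two
    ((ZMod.intCast_zmod_eq_zero_iff_dvd _ 2).1 h1)
    ((ZMod.intCast_zmod_eq_zero_iff_dvd _ 2).1 (by push_cast; exact h3))

lemma not_isSquare_seven (a : ℚ) : a ^ 2 ≠ 7 := by
  intro h
  have h7 : IsSquare ((7 : ℕ) : ℚ) := ⟨a, by push_cast; linear_combination -h⟩
  rw [Rat.isSquare_natCast_iff] at h7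
  obtain ⟨r, hr⟩ := h7
  have : r < 3 := by nlinarith
  interval_cases r <;> omega

/-- The rational points of `X₀(14)` lie over `t = 0, ±7`. -/
theorem seven_two_parameter {t z : ℚ}
    (hz : z ^ 3 - 3 * (t ^ 2 + 9 * t + 17) * z ^ 2 + 144 * (t + 5) * z - 1728 = 0) :
    t = 0 ∨ t = 7 ∨ t = -7 := by
  have hz0 : z ≠ 0 := by rintro rfl; norm_num at hz
  set v := 12 / z with hv
  have hv0 : v ≠ 0 := div_ne_zero (by norm_num) hz0
  have hq : v * t ^ 2 + (9 * v - 4 * v ^ 2) * t + (4 * v ^ 3 - 20 * v ^ 2 + 17 * v - 4) = 0 := by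
    rw [hv]; field_simp; linear_combination (-4 : ℚ) * hz
  have hcurve : (8 * (2 * v * t + 9 * v - 4 * v ^ 2)) ^ 2 =
      8 * v * ((8 * v) ^ 2 + 13 * (8 * v) + 128) := by linear_combination (256 * v) * hq
  rcases curve_seven_points hcurve with h | h | h
  · exact absurd h (by simpa using hv0)
  · have hv' : v = 1 / 2 := by linarith
    rw [hv'] at hq
    rcases mul_eq_zero.1 (show t * (t + 7) = 0 by linear_combination (2 : ℚ) * hq) with h1 | h1
    · exact Or.inl h1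
    · exact Or.inr (Or.inr (by linarith))
  · have hv' : v = 4 := by linarith
    rw [hv'] at hq
    rcases mul_eq_zero.1 (show t * (t - 7) = 0 by linear_combination (1 / 4 : ℚ) * hq) with h1 | h1
    · exact Or.inl h1
    · exact Or.inr (Or.inl (by linarith))

/-- An elliptic curve with square discriminant, `c₄ ≠ 0` and a rational 2-torsion point has no
Galois-stable line in its 7-torsion. -/
theorem no_stable_line_seven [W.IsElliptic] {δ r : ℚ} (hδ : W.Δ = δ ^ 2) (hc4 : W.c₄ ≠ 0)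
    (hr : 4 * r ^ 3 + W.b₂ * r ^ 2 + 2 * W.b₄ * r + W.b₆ = 0)
    {N : Submodule (ZMod 7) (Submodule.torsionBy ℤ (W⁄(AlgebraicClosure ℚ)).Point ((7 : ℕ) : ℤ))}
    (hst : IsGaloisStable ℚ N) (hbot : N ≠ ⊥) (htop : N ≠ ⊤) : False := by
  obtain ⟨t, ht, h1⟩ := exists_seven_parameter_of_stable_line hst hbot htop
  have hΔ : W.Δ ≠ 0 := W.isUnit_Δ.ne_zero
  have hδ0 : δ ≠ 0 := by rintro rfl; exact hΔ (by rw [hδ]; ring)
  set L := t ^ 2 + 13 * t + 49 with hL
  set M := t ^ 2 + 5 * t + 1 with hM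
  set Q := t ^ 4 + 14 * t ^ 3 + 63 * t ^ 2 + 70 * t - 7 with hQ
  have hQ0 : Q ≠ 0 := seven_quartic_ne_zero t
  have hid : L * M ^ 3 - 1728 * t = Q ^ 2 := by rw [hL, hM, hQ]; ring
  have hc6 : W.c₆ ^ 2 * t = W.Δ * Q ^ 2 := by
    linear_combination h1 + t * W.c_relation + W.Δ * hid
  have hc60 : W.c₆ ≠ 0 := by
    intro h0; rw [h0] at hc6
    exact mul_ne_zero hΔ (pow_ne_zero 2 hQ0) (by linear_combination -hc6)
  have hLM : L ≠ 0 ∧ M ≠ 0 := by
    have h : W.Δ * (L * M ^ 3) ≠ 0 := h1 ▸ mul_ne_zero (pow_ne_zero 3 hc4) ht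
    exact ⟨fun h0 => h (by rw [h0]; ring), fun h0 => h (by rw [h0]; ring)⟩
  have hsq : (δ * Q / W.c₆) ^ 2 = t := by
    rw [div_pow, div_eq_iff (pow_ne_zero 2 hc60)]
    linear_combination -hc6 - Q ^ 2 * hδ
  set κ := W.c₆ * M / (W.c₄ * Q) with hκ
  have hκ0 : κ ≠ 0 := div_ne_zero (mul_ne_zero hc60 hLM.2) (mul_ne_zero hc4 hQ0)
  have hk2 : W.c₄ = κ ^ 2 * (L * M) := by
    have : κ ^ 2 * (L * M) * (W.c₄ ^ 2 * Q ^ 2) * t = W.c₄ * (W.c₄ ^ 2 * Q ^ 2) * t := by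
      have key : L * M ^ 3 * W.c₆ ^ 2 = Q ^ 2 * W.c₄ ^ 3 :=
        mul_right_cancel₀ ht (by linear_combination L * M ^ 3 * hc6 - Q ^ 2 * h1)
      rw [hκ]; field_simp
      linear_combination key
    exact (mul_right_cancel₀ (mul_ne_zero (pow_ne_zero 2 hc4) (pow_ne_zero 2 hQ0))
      (mul_right_cancel₀ ht this)).symm
  have hk3 : W.c₆ = κ ^ 3 * (L * Q) := by
    calc W.c₆ = W.c₆ / W.c₄ * W.c₄ := by field_simp
      _ = W.c₆ / W.c₄ * (κ ^ 2 * (L * M)) := by rw [← hk2]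
      _ = κ ^ 3 * (L * Q) := by rw [hκ]; field_simp
  set X := 36 * r + 3 * W.b₂ with hX
  have hXeq : X ^ 3 - 27 * W.c₄ * X - 54 * W.c₆ = 0 := by
    rw [hX, WeierstrassCurve.c₄, WeierstrassCurve.c₆]
    linear_combination (11664 : ℚ) * hr
  set Z := X / (3 * κ) with hZ
  have hXZ : X = 3 * κ * Z := by rw [hZ]; field_simp
  have hZeq : Z ^ 3 - 3 * (L * M) * Z - 2 * (L * Q) = 0 := by
    have h0 : 27 * κ ^ 3 * (Z ^ 3 - 3 * (L * M) * Z - 2 * (L * Q)) = 0 := by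
      rw [hk2, hk3, hXZ] at hXeq
      linear_combination hXeq
    exact (mul_eq_zero.1 h0).resolve_left (mul_ne_zero (by norm_num) (pow_ne_zero 3 hκ0))
  rcases seven_two_parameter (t := t) (z := Z + (t ^ 2 + 9 * t + 17))
      (by rw [hL, hM, hQ] at hZeq; linear_combination hZeq) with h | h | h
  · exact ht h
  · exact not_isSquare_seven _ (hsq.trans h)
  · linarith [sq_nonneg (δ * Q / W.c₆)]

end Galois

end Fermat.Agent.Mazur.Small
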