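import Mathlib

/-!
The Tate normal form invariants of a point on a Weierstrass curve, computed directly from its
coordinates: for a point `P = (x, y)` which is not of order 2, translating `P` to the origin and its
tangent to the horizontal axis gives `Y² + A₁ X Y + A₃ Y = X³ + A₂ X²`.
Also points of prime order and functions invariant under their multiples.
-/

set_option autoImplicit false

open WeierstrassCurve WeierstrassCurve.Affine WeierstrassCurve.Affine.Point

namespace Fermat.Agent.Mazur.Small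

variable {F : Type*} [Field F] (W : WeierstrassCurve.Affine F) (x y : F)

/-- The coefficient `A₃` of the normalised equation. -/
def tateA3 : F := 2 * y + W.a₁ * x + W.a₃

/-- The tangent slope. -/
def tateLam : F := (3 * x ^ 2 + 2 * W.a₂ * x + W.a₄ - W.a₁ * y) / tateA3 W x y

/-- The coefficient `A₁` of the normalised equation. -/
def tateA1 : F := W.a₁ + 2 * tateLam W x y

/-- The coefficient `A₂` of the normalised equation. -/
def tateA2 : F := 3 * x + W.a₂ - tateLam W x y * W.a₁ - tateLam W x y ^ 2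

/-- The invariant `b` of the Tate normal form. -/
def tateB : F := -tateA2 W x y ^ 3 / tateA3 W x y ^ 2

/-- The invariant `c` of the Tate normal form. -/
def tateC : F := 1 - tateA1 W x y * tateA2 W x y / tateA3 W x y

/-- Abscissa of the double. -/
def tateX2 : F := x - tateA2 W x y

/-- Ordinate of the double. -/
def tateY2 : F :=
  y - tateLam W x y * tateA2 W x y + tateA1 W x y * tateA2 W x y - tateA3 W x y

section neg

lemma tateA3_negY : tateA3 W x (W.negY x y) = -tateA3 W x y := by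
  simp only [tateA3, negY]; ring

lemma tateLam_negY (h3 : tateA3 W x y ≠ 0) :
    tateLam W x (W.negY x y) = -tateLam W x y - W.a₁ := by
  rw [tateLam, tateLam, tateA3_negY]
  field_simp
  simp only [tateA3, negY]
  ring

lemma tateA1_negY (h3 : tateA3 W x y ≠ 0) : tateA1 W x (W.negY x y) = -tateA1 W x y := by
  simp only [tateA1, tateLam_negY W x y h3]; ring

lemma tateA2_negY (h3 : tateA3 W x y ≠ 0) : tateA2 W x (W.negY x y) = tateA2 W x y := by
  simp only [tateA2, tateLam_negY W x y h3]; ring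

lemma tateB_negY (h3 : tateA3 W x y ≠ 0) : tateB W x (W.negY x y) = tateB W x y := by
  simp only [tateB, tateA2_negY W x y h3, tateA3_negY]; ring

lemma tateC_negY (h3 : tateA3 W x y ≠ 0) : tateC W x (W.negY x y) = tateC W x y := by
  simp only [tateC, tateA1_negY W x y h3, tateA2_negY W x y h3, tateA3_negY]
  rw [neg_mul, neg_div_neg_eq]

end neg

section double

lemma tateA3_double :
    tateA3 W (tateX2 W x y) (tateY2 W x y) = tateA1 W x y * tateA2 W x y - tateA3 W x y := by
  simp only [tateY2, tateX2, tateA1, tateA3]; ring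

lemma tateLam_double (h3 : tateA3 W x y ≠ 0)
    (h3' : tateA1 W x y * tateA2 W x y - tateA3 W x y ≠ 0) :
    tateLam W (tateX2 W x y) (tateY2 W x y) = tateLam W x y +
      (tateA2 W x y ^ 2 - tateA1 W x y ^ 2 * tateA2 W x y + tateA1 W x y * tateA3 W x y) /
        (tateA1 W x y * tateA2 W x y - tateA3 W x y) := by
  have hlam : 3 * x ^ 2 + 2 * W.a₂ * x + W.a₄ - W.a₁ * y = tateLam W x y * tateA3 W x y := by
    rw [tateLam]; field_simp
  rw [eq_comm, ← sub_eq_zero, tateLam.eq_1 W (tateX2 W x y), tateA3_double, add_div' _ _ _ h3',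
    div_sub_div_same, div_eq_zero_iff]
  left
  generalize hl : tateLam W x y = l at hlam
  simp only [tateY2, tateX2, tateA1, tateA2, tateA3, hl] at hlam ⊢
  linear_combination -hlam

lemma tateA1_double (h3 : tateA3 W x y ≠ 0)
    (h3' : tateA1 W x y * tateA2 W x y - tateA3 W x y ≠ 0) :
    tateA1 W (tateX2 W x y) (tateY2 W x y) = tateA1 W x y +
      2 * ((tateA2 W x y ^ 2 - tateA1 W x y ^ 2 * tateA2 W x y + tateA1 W x y * tateA3 W x y) /
        (tateA1 W x y * tateA2 W x y - tateA3 W x y)) := by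
  rw [tateA1.eq_1 W (tateX2 W x y), tateLam_double W x y h3 h3']
  simp only [tateA1]; ring

lemma tateA2_double (h3 : tateA3 W x y ≠ 0)
    (h3' : tateA1 W x y * tateA2 W x y - tateA3 W x y ≠ 0) :
    ∀ μ, μ = (tateA2 W x y ^ 2 - tateA1 W x y ^ 2 * tateA2 W x y + tateA1 W x y * tateA3 W x y) /
        (tateA1 W x y * tateA2 W x y - tateA3 W x y) →
    tateA2 W (tateX2 W x y) (tateY2 W x y) =
      -2 * tateA2 W x y - tateA1 W x y * μ - μ ^ 2 := by
  intro μ hμ
  rw [tateA2.eq_1 W (tateX2 W x y), tateLam_double W x y h3 h3', ← hμ]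
  simp only [tateX2, tateA1, tateA2]; ring

end double

section invariants

lemma c4_eq (h3 : tateA3 W x y ≠ 0) :
    W.c₄ = (tateA1 W x y ^ 2 + 4 * tateA2 W x y) ^ 2 - 24 * (tateA1 W x y * tateA3 W x y) := by
  have ha4 : W.a₄ = tateLam W x y * tateA3 W x y - 3 * x ^ 2 - 2 * W.a₂ * x + W.a₁ * y := by
    rw [tateLam, div_mul_cancel₀ _ h3]; ring
  generalize hl : tateLam W x y = l at ha4
  simp only [tateA1, tateA2, tateA3, hl] at ha4 ⊢
  simp only [WeierstrassCurve.c₄, WeierstrassCurve.b₂, WeierstrassCurve.b₄]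
  rw [ha4]; ring

lemma delta_eq (h3 : tateA3 W x y ≠ 0) (h : W.Equation x y) :
    W.Δ = -(tateA1 W x y ^ 2 + 4 * tateA2 W x y) ^ 2 * tateA2 W x y * tateA3 W x y ^ 2
      - 8 * (tateA1 W x y * tateA3 W x y) ^ 3 - 27 * tateA3 W x y ^ 4
      + 9 * (tateA1 W x y ^ 2 + 4 * tateA2 W x y) * (tateA1 W x y * tateA3 W x y)
        * tateA3 W x y ^ 2 := by
  have ha4 : W.a₄ = tateLam W x y * tateA3 W x y - 3 * x ^ 2 - 2 * W.a₂ * x + W.a₁ * y := by
    rw [tateLam, div_mul_cancel₀ _ h3]; ring
  have ha6 : W.a₆ = y ^ 2 + W.a₁ * x * y + W.a₃ * y - x ^ 3 - W.a₂ * x ^ 2 - W.a₄ * x := by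
    rw [equation_iff] at h; linear_combination -h
  generalize hl : tateLam W x y = l at ha4
  simp only [tateA1, tateA2, tateA3, hl] at ha4 ⊢
  simp only [WeierstrassCurve.Δ, WeierstrassCurve.b₂, WeierstrassCurve.b₄, WeierstrassCurve.b₆,
    WeierstrassCurve.b₈]
  rw [ha6, ha4]; ring

end invariants

section map

variable {L : Type*} [Field L] (f : F →+* L)

lemma map_tateA3 : tateA3 (W.map f) (f x) (f y) = f (tateA3 W x y) := by
  simp [tateA3, map_ofNat]

lemma map_tateLam : tateLam (W.map f) (f x) (f y) = f (tateLam W x y) := by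
  simp [tateLam, map_tateA3, map_ofNat]

lemma map_tateB : tateB (W.map f) (f x) (f y) = f (tateB W x y) := by
  simp [tateB, tateA2, map_tateA3, map_tateLam, map_ofNat]

lemma map_tateC : tateC (W.map f) (f x) (f y) = f (tateC W x y) := by
  simp [tateC, tateA1, tateA2, map_tateA3, map_tateLam, map_ofNat]

end map

section group

variable [DecidableEq F] {W} {x y : F} (h : W.Nonsingular x y)

include h

lemma tateA3_ne_zero (h2 : (2 : ℕ) • Point.some _ _ h ≠ 0) : tateA3 W x y ≠ 0 := by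
  intro h0
  apply h2
  rw [two_nsmul]
  refine add_self_of_Y_eq ?_
  simp only [tateA3, negY] at h0 ⊢
  linear_combination h0

lemma exists_double (h3 : tateA3 W x y ≠ 0) :
    ∃ h2 : W.Nonsingular (tateX2 W x y) (tateY2 W x y),
      (2 : ℕ) • Point.some _ _ h = Point.some _ _ h2 := by
  have hy : y ≠ W.negY x y := by
    intro h0; apply h3; simp only [negY] at h0; simp only [tateA3]; linear_combination h0
  have hl : W.slope x x y y = tateLam W x y := by
    rw [slope_of_Y_ne rfl hy, tateLam]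
    congr 1
    simp only [tateA3, negY]; ring
  have hxy : ¬(x = x ∧ y = W.negY x y) := fun hh => hy hh.2
  have hX : W.addX x x (W.slope x x y y) = tateX2 W x y := by
    simp only [hl, addX, tateX2, tateA2]; ring
  have hY : W.addY x x y (W.slope x x y y) = tateY2 W x y := by
    simp only [hl, addY, negAddY, negY, addX, tateY2, tateA1, tateA2, tateA3]; ring
  have hns : W.Nonsingular (tateX2 W x y) (tateY2 W x y) := hX ▸ hY ▸ nonsingular_add h h hxy
  refine ⟨hns, ?_⟩
  rw [two_nsmul, add_some hxy]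
  simp only [Point.some.injEq]
  exact ⟨hX, hY⟩

lemma tateA2_ne_zero (h3 : tateA3 W x y ≠ 0) (hthree : (3 : ℕ) • Point.some _ _ h ≠ 0) :
    tateA2 W x y ≠ 0 := by
  intro h0
  obtain ⟨h2, hd⟩ := exists_double h h3
  have hxx : tateX2 W x y = x := by simp [tateX2, h0]
  rcases (X_eq_iff (h₁ := h2) (h₂ := h)).1 hxx with he | he
  · rw [← hd, two_nsmul, add_eq_left] at he
    exact some_ne_zero h he
  · exact hthree (by rw [succ_nsmul, hd, he, neg_add_cancel])

lemma exists_triple (h3 : tateA3 W x y ≠ 0) (h2' : tateA2 W x y ≠ 0) :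
    ∃ (y' : F) (h' : W.Nonsingular
        (x + (tateA3 W x y - tateA1 W x y * tateA2 W x y) * tateA3 W x y / tateA2 W x y ^ 2) y'),
      (3 : ℕ) • Point.some _ _ h = Point.some _ _ h' := by
  obtain ⟨h2, hd⟩ := exists_double h h3
  have hne : x ≠ tateX2 W x y := by
    intro h0; apply h2'; simp only [tateX2] at h0; linear_combination h0
  have hxy : ¬(x = tateX2 W x y ∧ y = W.negY (tateX2 W x y) (tateY2 W x y)) := fun hh => hne hh.1
  have hl : W.slope x (tateX2 W x y) y (tateY2 W x y) =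
      tateLam W x y + (tateA3 W x y - tateA1 W x y * tateA2 W x y) / tateA2 W x y := by
    rw [slope_of_X_ne hne, tateX2, tateY2, sub_sub_cancel]
    field_simp
    ring
  have hX : W.addX x (tateX2 W x y) (W.slope x (tateX2 W x y) y (tateY2 W x y)) =
      x + (tateA3 W x y - tateA1 W x y * tateA2 W x y) * tateA3 W x y / tateA2 W x y ^ 2 := by
    rw [hl, addX, tateX2]
    generalize hL : tateLam W x y = l
    simp only [tateA1, tateA2, hL] at h2' ⊢
    field_simp
    ring
  refine ⟨_, hX ▸ nonsingular_add h h2 hxy, ?_⟩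
  rw [succ_nsmul, hd, add_comm, add_some hxy]
  simp only [Point.some.injEq]
  exact ⟨hX, trivial⟩

end group

section prime

variable [DecidableEq F] {W} {p : ℕ} (hp : p.Prime)

include hp

lemma nsmul_ne_zero_of_prime {P : W.Point} (hP : P ≠ 0) (hpP : p • P = 0) {k : ℕ}
    (hk : ¬ p ∣ k) : k • P ≠ 0 := by
  have : Fact p.Prime := ⟨hp⟩
  intro h
  exact hk (addOrderOf_eq_prime hpP hP ▸ addOrderOf_dvd_of_nsmul_eq_zero h)

lemma tateA3_ne_zero_of_prime (hp2 : p ≠ 2) {x y : F} (h : W.Nonsingular x y)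
    (hpP : p • Point.some _ _ h = 0) : tateA3 W x y ≠ 0 :=
  tateA3_ne_zero h (nsmul_ne_zero_of_prime hp (some_ne_zero h) hpP
    (fun hd => hp2 ((Nat.prime_dvd_prime_iff_eq hp Nat.prime_two).1 hd)))

lemma tateA2_ne_zero_of_prime (hp3 : p ≠ 3) {x y : F} (h : W.Nonsingular x y)
    (h3 : tateA3 W x y ≠ 0) (hpP : p • Point.some _ _ h = 0) : tateA2 W x y ≠ 0 :=
  tateA2_ne_zero h h3 (nsmul_ne_zero_of_prime hp (some_ne_zero h) hpP
    (fun hd => hp3 ((Nat.prime_dvd_prime_iff_eq hp Nat.prime_three).1 hd)))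

/-- A function unchanged by doubling is unchanged by multiplication by powers of 2. -/
lemma invariant_two_pow_nsmul {α : Type*} (φ : W.Point → α) (hp2 : p ≠ 2)
    (h2 : ∀ Q : W.Point, Q ≠ 0 → p • Q = 0 → φ ((2 : ℕ) • Q) = φ Q)
    {P : W.Point} (hP : P ≠ 0) (hpP : p • P = 0) (i : ℕ) : φ (2 ^ i • P) = φ P := by
  induction i with
  | zero => rw [pow_zero, one_nsmul]
  | succ i ih =>
    rw [pow_succ, mul_nsmul, h2 _ ?_ (by rw [smul_comm, hpP, smul_zero]), ih]
    exact nsmul_ne_zero_of_prime hp hP hpP fun hd =>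
      hp2 ((Nat.prime_dvd_prime_iff_eq hp Nat.prime_two).1 (hp.dvd_of_dvd_pow hd))

/-- If `2` generates `(ℤ/p)ˣ`, a function unchanged by doubling is unchanged by multiples. -/
lemma invariant_nsmul {α : Type*} (φ : W.Point → α) (hp2 : p ≠ 2)
    (h2 : ∀ Q : W.Point, Q ≠ 0 → p • Q = 0 → φ ((2 : ℕ) • Q) = φ Q)
    (hgen : ∀ j < p, j ≠ 0 → ∃ i < p, 2 ^ i % p = j)
    {P : W.Point} (hP : P ≠ 0) (hpP : p • P = 0) {k : ℕ} (hk : k • P ≠ 0) :
    φ (k • P) = φ P := by
  rw [nsmul_eq_mod_nsmul k hpP] at hk ⊢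
  obtain ⟨i, -, hi⟩ := hgen _ (Nat.mod_lt k hp.pos) (fun h0 => hk (by rw [h0, zero_nsmul]))
  rw [← hi, ← nsmul_eq_mod_nsmul (2 ^ i) hpP]
  exact invariant_two_pow_nsmul hp φ hp2 h2 hP hpP i

end prime

lemma exists_tate_parameters (h3 : tateA3 W x y ≠ 0) (h2 : tateA2 W x y ≠ 0) :
    ∃ u b c : F, u ≠ 0 ∧ b ≠ 0 ∧ tateB W x y = b ∧ tateC W x y = c ∧
      tateA1 W x y = u * (1 - c) ∧ tateA2 W x y = -b * u ^ 2 ∧ tateA3 W x y = -b * u ^ 3 := by
  refine ⟨tateA3 W x y / tateA2 W x y, tateB W x y, tateC W x y, div_ne_zero h3 h2, ?_, rfl, rfl,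
    ?_, ?_, ?_⟩
  · simp [tateB, h3, h2]
  · simp only [tateC]; field_simp; ring
  · simp only [tateB]; field_simp
  · simp only [tateB]; field_simp

section baseChange

variable {k L : Type*} [Field k] [Field L] [Algebra k L] {V : WeierstrassCurve.Affine k}

/-- The invariants of the conjugate point are the conjugate invariants. -/
lemma tate_algEquiv (σ : L ≃ₐ[k] L) (x y : L) :
    tateB (V⁄L) (σ x) (σ y) = σ (tateB (V⁄L) x y) ∧
      tateC (V⁄L) (σ x) (σ y) = σ (tateC (V⁄L) x y) := by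
  have hV : (V⁄L).map (σ.toAlgHom : L →+* L) = V⁄L :=
    WeierstrassCurve.map_baseChange (W := V) σ.toAlgHom
  have hb := map_tateB (V⁄L) x y (σ.toAlgHom : L →+* L)
  have hc := map_tateC (V⁄L) x y (σ.toAlgHom : L →+* L)
  rw [hV] at hb hc
  exact ⟨hb, hc⟩

end baseChange

end Fermat.Agent.Mazur.Small
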